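/-
Programme ORD (S33), chapter GLUEN (helper7): **rationality of the formal group law by uniqueness**
(port of `FF/GLUE/Rational7` to the abstract coordinate systems of `INSTN/KapSys7`).

F5 (FAMN) constructs the power series of the three-fold group law on `ker(red) ≅ m_A^g` over the whole
valuation ring `A` (`PSOutN K`).  A power series over `A` is determined by its approximate values on
`m_A^n` (`FF/GLUE/UniqSeries7`), and the coordinates are `Γ`-equivariant (`GalAct.actX_kap`), so its
coefficients are `Γ`-fixed, hence lie in `W ⊇ A^Γ`; truncating and specialising the third group of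
variables at a `W`-rational `δ` gives `ComulN7.FGOutN K W`.

* `Var g`, `coords T T' δ`, `PSOutN K` (verbatim `Rational7.PSOut` on a `KapSys`);
* `valFun`, `valFun_equivariant`, `coeff_fixed`;
* `fgOut_of_psOut : PSOutN K → FGOutN K W`.
-/
import Mathlib
import Fermat.Agent.ORD.INSTN.ComulN7
import Fermat.Agent.FF.GLUE.UniqSeries7

set_option autoImplicit false
set_option linter.unusedSectionVars false
set_option linter.style.longLine false

namespace Fermat.Agent.ORD.GLUEN.RationalN7

open Fermat.Agent.ORD.INSTN.KapSys7 Fermat.Agent.ORD.INSTN.ComulN7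
open Fermat.Agent.FF.GLUE.UniqSeries7

noncomputable section

variable {L : Type} [Field L] {A : ValuationSubring L} {g : ℕ} {X : Type} [AddCommGroup X]

/-- the variables of the three-fold group law. -/
abbrev Var (g : ℕ) : Type := (Fin g ⊕ Fin g) ⊕ Fin g

/-- the coordinate vector of a triple of points of the kernel. -/
def coords (T T' δ : Fin g → mA A) : Var g → A :=
  Sum.elim (Sum.elim (fun l => (T l : A)) (fun l => (T' l : A))) (fun l => (δ l : A))

theorem coords_mem (T T' δ : Fin g → mA A) (s : Var g) :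
    coords T T' δ s ∈ IsLocalRing.maximalIdeal A := by
  rcases s with (l | l) | l
  · exact (T l).2
  · exact (T' l).2
  · exact (δ l).2

/-- **the contract for F5's output** (power series over `A`): the three-fold sum in coordinates is
computed by `F`, up to the `N`-th power of the ideal generated by the coordinates. -/
def PSOutN (K : KapSys A g X) : Prop :=
  ∃ Fs : Fin g → MvPowerSeries (Var g) A, ∀ T T' δ T'' : Fin g → mA A,
    K.kap T + K.kap T' + K.kap δ = K.kap T'' → ∀ (i : Fin g) (N : ℕ),
      ((T'' i : A)) - MvPolynomial.eval (coords T T' δ) (MvPowerSeries.truncTotal N (Fs i))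
        ∈ Ideal.span (Set.range (coords T T' δ)) ^ N

variable {K : KapSys A g X} {Γ : Type} [Group Γ] [MulSemiringAction Γ L] (Z : GalAct K Γ)

/-- the three coordinate vectors extracted from a point of `m_A^{3g}`. -/
def vec1 (x : Var g → A) (h : ∀ s, x s ∈ IsLocalRing.maximalIdeal A) : Fin g → mA A :=
  fun l => ⟨x (Sum.inl (Sum.inl l)), h _⟩
def vec2 (x : Var g → A) (h : ∀ s, x s ∈ IsLocalRing.maximalIdeal A) : Fin g → mA A :=
  fun l => ⟨x (Sum.inl (Sum.inr l)), h _⟩
def vec3 (x : Var g → A) (h : ∀ s, x s ∈ IsLocalRing.maximalIdeal A) : Fin g → mA A :=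
  fun l => ⟨x (Sum.inr l), h _⟩

theorem coords_vec (x : Var g → A) (h : ∀ s, x s ∈ IsLocalRing.maximalIdeal A) :
    coords (vec1 x h) (vec2 x h) (vec3 x h) = x := by
  funext s
  rcases s with (l | l) | l <;> rfl

open Classical in
/-- the value function: the `i`-th coordinate of the sum of the three points. -/
def valFun (K : KapSys A g X) (i : Fin g) (x : Var g → A) : A :=
  if h : ∀ s, x s ∈ IsLocalRing.maximalIdeal A then
    ((K.add3 (vec1 x h) (vec2 x h) (vec3 x h)).choose i : A)
  else 0

theorem valFun_eq (i : Fin g) (x : Var g → A) (hx : ∀ s, x s ∈ IsLocalRing.maximalIdeal A)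
    (T'' : Fin g → mA A)
    (h : K.kap (vec1 x hx) + K.kap (vec2 x hx) + K.kap (vec3 x hx) = K.kap T'') :
    valFun K i x = (T'' i : A) := by
  unfold valFun
  rw [dif_pos hx]
  have hch := (K.add3 (vec1 x hx) (vec2 x hx) (vec3 x hx)).choose_spec
  have := K.inj (h.symm.trans hch)
  rw [← this]

theorem valFun_spec (i : Fin g) (T T' δ T'' : Fin g → mA A)
    (hsum : K.kap T + K.kap T' + K.kap δ = K.kap T'') :
    valFun K i (coords T T' δ) = (T'' i : A) := by
  have hx : ∀ s, coords T T' δ s ∈ IsLocalRing.maximalIdeal A := coords_mem T T' δ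
  have h1 : vec1 (coords T T' δ) hx = T := by funext l; exact Subtype.ext rfl
  have h2 : vec2 (coords T T' δ) hx = T' := by funext l; exact Subtype.ext rfl
  have h3 : vec3 (coords T T' δ) hx = δ := by funext l; exact Subtype.ext rfl
  apply valFun_eq i _ hx T''
  rw [h1, h2, h3]
  exact hsum

/-- F5's series approximates the value function. -/
theorem approx_of_psOut {Fs : Fin g → MvPowerSeries (Var g) A}
    (hF : ∀ T T' δ T'' : Fin g → mA A,
      K.kap T + K.kap T' + K.kap δ = K.kap T'' → ∀ (i : Fin g) (N : ℕ),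
        ((T'' i : A)) - MvPolynomial.eval (coords T T' δ) (MvPowerSeries.truncTotal N (Fs i))
          ∈ Ideal.span (Set.range (coords T T' δ)) ^ N) (i : Fin g) :
    Approx (IsLocalRing.maximalIdeal A) (valFun K i) (Fs i) := by
  intro x hx N
  obtain ⟨T'', hT''⟩ := K.add3 (vec1 x hx) (vec2 x hx) (vec3 x hx)
  have h := hF _ _ _ T'' hT'' i N
  rw [← valFun_spec i _ _ _ T'' hT'', coords_vec] at h
  exact h

/-- **the value function is `Γ`-equivariant.** -/
theorem valFun_equivariant (γ : Γ) (i : Fin g)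
    (x : Var g → A) (hx : ∀ s, x s ∈ IsLocalRing.maximalIdeal A) :
    valFun K i (fun s => gA Z.hΓA γ (x s)) = gA Z.hΓA γ (valFun K i x) := by
  obtain ⟨T'', hT''⟩ := K.add3 (vec1 x hx) (vec2 x hx) (vec3 x hx)
  have h1 : valFun K i x = (T'' i : A) := valFun_eq i x hx T'' hT''
  have hsum' : K.kap (gVec Z.hΓA γ (vec1 x hx)) + K.kap (gVec Z.hΓA γ (vec2 x hx))
      + K.kap (gVec Z.hΓA γ (vec3 x hx)) = K.kap (gVec Z.hΓA γ T'') := by
    rw [← Z.actX_kap γ, ← Z.actX_kap γ, ← Z.actX_kap γ, ← Z.actX_kap γ, ← hT'', Z.actX_add,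
      Z.actX_add]
  have h2 := valFun_spec i _ _ _ _ hsum'
  have hc : coords (gVec Z.hΓA γ (vec1 x hx)) (gVec Z.hΓA γ (vec2 x hx))
      (gVec Z.hΓA γ (vec3 x hx)) = fun s => gA Z.hΓA γ (x s) := by
    funext s
    rcases s with (l | l) | l <;> rfl
  rw [hc] at h2
  rw [h2, h1]
  rfl

include Z in
/-- **the coefficients of F5's series are `Γ`-fixed.** -/
theorem coeff_fixed [Infinite A]
    (hsmall : Fermat.Agent.FF.GLUE.UniqSeries7.Small (IsLocalRing.maximalIdeal A))
    {Fs : Fin g → MvPowerSeries (Var g) A}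
    (hF : ∀ T T' δ T'' : Fin g → mA A,
      K.kap T + K.kap T' + K.kap δ = K.kap T'' → ∀ (i : Fin g) (N : ℕ),
        ((T'' i : A)) - MvPolynomial.eval (coords T T' δ) (MvPowerSeries.truncTotal N (Fs i))
          ∈ Ideal.span (Set.range (coords T T' δ)) ^ N)
    (γ : Γ) (i : Fin g) (d : Var g →₀ ℕ) :
    γ • ((MvPowerSeries.coeff d (Fs i) : A) : L) = ((MvPowerSeries.coeff d (Fs i) : A) : L) := by
  have h := coeff_fixed_of_equivariant hsmall (gA Z.hΓA γ) (gA_mem_iff Z.hΓA γ)
    (fun x hx => valFun_equivariant Z γ i x hx) (approx_of_psOut hF i) d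
  exact congrArg Subtype.val h

/-! ### from the series over `A` to polynomials over `W` -/

/-- the substitution `X ↦ X`, `Y ↦ Y`, `Z ↦ δ`. -/
def subZ {W : Type} [CommRing W] (δW : Fin g → W) : Var g → MvPolynomial (Fin g ⊕ Fin g) W :=
  Sum.elim (Sum.elim (fun l => MvPolynomial.X (Sum.inl l)) (fun l => MvPolynomial.X (Sum.inr l)))
    (fun l => MvPolynomial.C (δW l))

include Z in
/-- **Rationality by uniqueness**: F5's output over `A` gives `FGOutN K W` for every `W ⊇ A^Γ`. -/
theorem fgOut_of_psOut [Infinite A] {W : Type} [CommRing W] [Algebra W L]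
    (hsmall : Fermat.Agent.FF.GLUE.UniqSeries7.Small (IsLocalRing.maximalIdeal A))
    (hrank : ∀ w : A, w ≠ 0 → ∀ c : A, ¬ IsUnit c → ∃ n : ℕ, c ^ n ∈ Ideal.span {w})
    (hWA : ∀ w : W, algebraMap W L w ∈ A) (hWinj : Function.Injective (algebraMap W L))
    (hWfix : ∀ a : A, (∀ γ : Γ, γ • (a : L) = (a : L)) → ∃ w : W, algebraMap W L w = (a : L))
    (hPS : PSOutN K) : FGOutN K W := by
  classical
  obtain ⟨Fs, hF⟩ := hPS
  -- the coefficients, in `W`
  have hcW : ∀ (i : Fin g) (d : Var g →₀ ℕ), ∃ w : W,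
      algebraMap W L w = ((MvPowerSeries.coeff d (Fs i) : A) : L) := fun i d =>
    hWfix _ fun γ => coeff_fixed Z hsmall hF γ i d
  choose cW hcW' using hcW
  let FW : Fin g → MvPowerSeries (Var g) W := fun i d => cW i d
  have hFW : ∀ i d, MvPowerSeries.coeff d (FW i) = cW i d := fun i d => rfl
  intro δ hδ a ha w hw
  choose δW hδW using hδ
  -- `w` as an element of `A`
  set wA : A := ⟨algebraMap W L w, hWA w⟩ with hwA
  have hwA0 : wA ≠ 0 := by
    intro h0
    apply hw
    apply hWinj
    rw [map_zero]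
    exact congrArg Subtype.val h0
  -- a common bound of `a` and the coordinates of `δ`
  obtain ⟨c, hc, hcdvd⟩ := exists_bound (insert a (Finset.univ.image fun l => (δ l : A))) (by
    intro b hb
    rcases Finset.mem_insert.mp hb with rfl | hb
    · exact ha
    · obtain ⟨l, _, rfl⟩ := Finset.mem_image.mp hb
      exact not_isUnit_of_mA _)
  have hca : c ∣ a := hcdvd a (Finset.mem_insert_self _ _)
  have hcδ : ∀ l, c ∣ (δ l : A) := fun l =>
    hcdvd _ (Finset.mem_insert_of_mem (Finset.mem_image.mpr ⟨l, Finset.mem_univ _, rfl⟩))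
  obtain ⟨N, hN⟩ := hrank wA hwA0 c hc
  refine ⟨fun i => MvPolynomial.bind₁ (subZ δW) (MvPowerSeries.truncTotal N (FW i)), ?_⟩
  intro T T' T'' hT hT' hsum i
  -- the ideal of the coordinates is contained in `(c)`
  have hle : Ideal.span (Set.range (coords T T' δ)) ≤ Ideal.span {c} := by
    rw [Ideal.span_le]
    rintro _ ⟨s, rfl⟩
    rw [SetLike.mem_coe, Ideal.mem_span_singleton]
    rcases s with (l | l) | l
    · obtain ⟨b, hb⟩ := hT l
      show c ∣ (T l : A)
      rw [hb]; exact hca.mul_right b
    · obtain ⟨b, hb⟩ := hT' l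
      show c ∣ (T' l : A)
      rw [hb]; exact hca.mul_right b
    · exact hcδ l
  have hmem := hF T T' δ T'' hsum i N
  have hmem2 : ((T'' i : A)) - MvPolynomial.eval (coords T T' δ)
      (MvPowerSeries.truncTotal N (Fs i)) ∈ Ideal.span {wA} := by
    have h1 := Ideal.pow_right_mono hle N hmem
    rw [Ideal.span_singleton_pow] at h1
    exact (Ideal.span_le.mpr (Set.singleton_subset_iff.mpr hN)) h1
  obtain ⟨b, hb⟩ := Ideal.mem_span_singleton.mp hmem2
  refine ⟨b, ?_⟩
  -- identify the two evaluations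
  have hev : MvPolynomial.aeval (pairVal T T')
      (MvPolynomial.bind₁ (subZ δW) (MvPowerSeries.truncTotal N (FW i)))
      = ((MvPolynomial.eval (coords T T' δ) (MvPowerSeries.truncTotal N (Fs i)) : A) : L) := by
    have hx : ∀ s : Var g, MvPolynomial.aeval (pairVal T T') (subZ δW s)
        = ((coords T T' δ s : A) : L) := by
      intro s
      rcases s with (l | l) | l
      · show MvPolynomial.aeval (pairVal T T') (MvPolynomial.X (Sum.inl l)) = _
        rw [MvPolynomial.aeval_X]; rfl
      · show MvPolynomial.aeval (pairVal T T') (MvPolynomial.X (Sum.inr l)) = _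
        rw [MvPolynomial.aeval_X]; rfl
      · show MvPolynomial.aeval (pairVal T T') (MvPolynomial.C (δW l)) = _
        rw [MvPolynomial.aeval_C, hδW]; rfl
    rw [MvPolynomial.aeval_bind₁]
    have h1 : (fun s => MvPolynomial.aeval (pairVal T T') (subZ δW s))
        = fun s => A.subtype (coords T T' δ s) := funext hx
    rw [h1]
    have h2 : ((MvPolynomial.eval (coords T T' δ) (MvPowerSeries.truncTotal N (Fs i)) : A) : L)
        = A.subtype (MvPolynomial.eval (coords T T' δ) (MvPowerSeries.truncTotal N (Fs i))) := rfl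
    rw [h2, MvPolynomial.eval₂_comp, MvPolynomial.aeval_def, MvPolynomial.eval₂_eq_eval_map,
      MvPolynomial.eval₂_eq_eval_map]
    congr 1
    -- the two polynomials over `L` agree
    ext d
    rw [MvPolynomial.coeff_map, MvPolynomial.coeff_map, MvPowerSeries.coeff_truncTotal_eq_ite,
      MvPowerSeries.coeff_truncTotal_eq_ite]
    split_ifs
    · rw [hFW, hcW']; rfl
    · rw [map_zero, map_zero]
  rw [hev]
  exact congrArg Subtype.val hb

/-- **the whole GLUEN + INSTN chain, abstractly**: from F5's power series on a coordinate system with a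
compatible Galois action to an approximate Hopf generating set of `m_A`-valued functions on every
finite `Γ`-stable subgroup of the range of `kap`. -/
theorem exists_approxGen_of_psOut [Infinite A] {W : Type} [CommRing W] [Algebra W L]
    {M : Type} [AddCommGroup M] {act : Γ → M → M} (Zs : SettingN K Γ M act)
    (hsmall : Fermat.Agent.FF.GLUE.UniqSeries7.Small (IsLocalRing.maximalIdeal A))
    (hrank : ∀ w : A, w ≠ 0 → ∀ c : A, ¬ IsUnit c → ∃ n : ℕ, c ^ n ∈ Ideal.span {w})
    (hWA : ∀ w : W, algebraMap W L w ∈ A) (hWinj : Function.Injective (algebraMap W L))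
    (hWfix : ∀ a : A, (∀ γ : Γ, γ • (a : L) = (a : L)) → ∃ w : W, algebraMap W L w = (a : L))
    (hPS : PSOutN K) :
    ∃ S0 : Set (M → L), Fermat.Agent.FF.BASE.ApproxGen2.ApproxGen W A.toSubring act S0 ∧
      ∀ s ∈ S0, ∀ x : M, ∃ c : mA A, s x = ((c : A) : L) :=
  exists_approxGen Zs (fgOut_of_psOut Zs.toGalAct hsmall hrank hWA hWinj hWfix hPS)

end

end Fermat.Agent.ORD.GLUEN.RationalN7
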